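import Fermat.Agent.LT.T6.H717.BH90Desc

/-!
# Row LT, tower T6, leaf T6.18g2-P2 (bounded Hilbert 90), helper717: the theorem

OFF-MAIN.  `bh90C717 : H783.BH90C783` (statement VERBATIM from helper783's `DescSpec.lean`).

* `descent717` : for a cyclic extension `k'/k` with generator `s` (`IsLocalExt`) and `A : ℤ` there
  is `C` such that every `x ∈ GL₂(k')` with cocycle `x⁻¹ s(x)` bounded by `A` is `x = g y'`,
  `g ∈ GL₂(k)`, `y'` and `y'⁻¹` bounded by `C`.
* `cover717` : the `C`-bounded elements of `GL₂(k')` lie in finitely many cosets `y U'(n)`.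
-/

set_option autoImplicit false
set_option linter.unusedSectionVars false
set_option linter.style.haveILetI false
set_option linter.unusedVariables false
set_option maxHeartbeats 1600000

open scoped Matrix

noncomputable section

namespace Fermat.Agent.LT.T6.H717

open Fermat.Agent.LT.T6 Fermat.Agent.LT.T6.H783 WithZero

variable {k k' : Type} [Field k] [Field k'] [Valued k Γ₀] [Valued k' Γ₀]

/-! ## Small matrix facts -/

lemma coe_mul_inv717 (x : GL (Fin 2) k') :
    (x : Matrix (Fin 2) (Fin 2) k') * ((x⁻¹ : GL (Fin 2) k') : Matrix (Fin 2) (Fin 2) k') = 1 := by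
  rw [← Matrix.GeneralLinearGroup.coe_mul, mul_inv_cancel]
  rfl

lemma coe_inv_mul717 (x : GL (Fin 2) k') :
    ((x⁻¹ : GL (Fin 2) k') : Matrix (Fin 2) (Fin 2) k') * (x : Matrix (Fin 2) (Fin 2) k') = 1 := by
  rw [← Matrix.GeneralLinearGroup.coe_mul, inv_mul_cancel]
  rfl

lemma coe_glAut717 (s : k' ≃+* k') (x : GL (Fin 2) k') :
    ((glAut s x : GL (Fin 2) k') : Matrix (Fin 2) (Fin 2) k')
      = (x : Matrix (Fin 2) (Fin 2) k').map s := by
  ext a b
  rfl

lemma coe_glMap717 (i : k →+* k') (g : GL (Fin 2) k) :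
    ((Matrix.GeneralLinearGroup.map i g : GL (Fin 2) k') : Matrix (Fin 2) (Fin 2) k')
      = (g : Matrix (Fin 2) (Fin 2) k).map i := by
  ext a b
  rfl

/-- `val(i α) ≤ 1` for integral `α`. -/
lemma val_i_le_one717 (e : ℕ) (i : k →+* k') (hi : ∀ x : k, Valued.v (i x) = Valued.v x ^ e)
    (α : k) (hα : Valued.v α ≤ 1) : Valued.v (i α) ≤ 1 := by
  rw [hi]
  exact pow_le_one' hα e

/-! ## The descent -/

theorem descent717 (l e : ℕ) (i : k →+* k') (s : k' ≃+* k') (hext : IsLocalExt k k' l e i s)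
    (A : ℤ) :
    ∃ C : ℤ, ∀ x : GL (Fin 2) k', EntryBdd783 A (x⁻¹ * glAut s x) →
      ∃ g : GL (Fin 2) k, EntryBdd783 C ((Matrix.GeneralLinearGroup.map i g)⁻¹ * x) := by
  classical
  have hcyc := hext.cyc
  have hl : 0 < l := hcyc.pos
  obtain ⟨ι, hι, a, b, hab⟩ := exists_partition717 s l hcyc.faithful
  obtain ⟨Ba, hBa0, hBa⟩ := exists_bound717 a
  obtain ⟨Bb, hBb0, hBb⟩ := exists_bound717 b
  set Ap : ℤ := max A 0 with hAp
  have hAp0 : 0 ≤ Ap := le_max_right _ _
  have hAAp : A ≤ Ap := le_max_left _ _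
  refine ⟨Ba + Bb + (l : ℤ) * Ap, fun x hx => ?_⟩
  set X : Matrix (Fin 2) (Fin 2) k' := (x : Matrix (Fin 2) (Fin 2) k') with hXdef
  set Xi : Matrix (Fin 2) (Fin 2) k' := ((x⁻¹ : GL (Fin 2) k') : Matrix (Fin 2) (Fin 2) k')
    with hXidef
  have hXXi : X * Xi = 1 := coe_mul_inv717 x
  have hXiX : Xi * X = 1 := coe_inv_mul717 x
  set cM : Matrix (Fin 2) (Fin 2) k' := Xi * X.map s with hcM
  have hcoe : ((x⁻¹ * glAut s x : GL (Fin 2) k') : Matrix (Fin 2) (Fin 2) k') = cM := by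
    rw [Matrix.GeneralLinearGroup.coe_mul, coe_glAut717]
  have hc : MBdd717 Ap cM := by
    intro r c
    have := (hx r c).1
    rw [hcoe] at this
    exact this.trans (exp_le_exp.2 hAAp)
  -- the matrices `N_m`
  have hN : ∀ m : ℕ, X.map (s ^ m) = X * Nmat717 s cM m := fun m => map_pow_eq717 s X Xi hXXi m
  have hNb : ∀ m : ℕ, m < l → MBdd717 ((l : ℤ) * Ap) (Nmat717 s cM m) := by
    intro m hm
    refine (Nmat_bdd717 s hext.val_s cM Ap hAp0 hc m).mono ?_
    have : (m : ℤ) ≤ (l : ℤ) := by exact_mod_cast hm.le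
    exact mul_le_mul_of_nonneg_right this hAp0
  -- the matrices `C_j`
  set Cj : ι → Matrix (Fin 2) (Fin 2) k' :=
    fun j => ∑ m ∈ Finset.range l, ((s ^ m) (b j)) • Nmat717 s cM m with hCj
  have hCjb : ∀ j, MBdd717 (Bb + (l : ℤ) * Ap) (Cj j) := by
    intro j
    refine MBdd717.sum _ _ (fun m hm => ?_)
    refine MBdd717.smul ?_ (hNb m (Finset.mem_range.1 hm))
    rw [val_pow717 s hext.val_s]
    exact hBb j
  -- the trace matrices `T_j = X C_j`
  have hT : ∀ j r c, (X * Cj j) r c = ∑ m ∈ Finset.range l, (s ^ m) (b j * X r c) := by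
    intro j r c
    have h1 : X * Cj j = ∑ m ∈ Finset.range l, ((s ^ m) (b j)) • X.map (s ^ m) := by
      rw [hCj]
      simp only
      rw [Finset.mul_sum]
      refine Finset.sum_congr rfl (fun m _ => ?_)
      rw [Matrix.mul_smul, ← hN m]
    rw [h1, Matrix.sum_apply]
    refine Finset.sum_congr rfl (fun m _ => ?_)
    rw [Matrix.smul_apply, Matrix.map_apply, smul_eq_mul, map_mul]
  have hTfix : ∀ j r c, s ((X * Cj j) r c) = (X * Cj j) r c := by
    intro j r c
    rw [hT]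
    exact trace_fixed717 s l hcyc.order _
  have hT0ex : ∀ j r c, ∃ t : k, i t = (X * Cj j) r c := fun j r c =>
    hcyc.fixed _ (hTfix j r c)
  choose T0 hT0 using hT0ex
  -- reconstruction of `X`
  have hXsum : ∀ r c, X r c = ∑ j, a j * i (T0 j r c) := by
    intro r c
    have h1 : ∑ j, a j * i (T0 j r c)
        = ∑ j, ∑ m ∈ Finset.range l, a j * (s ^ m) (b j) * (s ^ m) (X r c) := by
      refine Finset.sum_congr rfl (fun j _ => ?_)
      rw [hT0, hT, Finset.mul_sum]
      refine Finset.sum_congr rfl (fun m _ => ?_)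
      rw [map_mul, mul_assoc]
    rw [h1, Finset.sum_comm]
    have h2 : ∀ m ∈ Finset.range l, ∑ j, a j * (s ^ m) (b j) * (s ^ m) (X r c)
        = if m = 0 then X r c else 0 := by
      intro m hm
      rw [← Finset.sum_mul, hab m (Finset.mem_range.1 hm)]
      by_cases hm0 : m = 0
      · subst hm0
        rw [if_pos rfl, if_pos rfl, one_mul, pow_zero_apply717]
      · rw [if_neg hm0, if_neg hm0, zero_mul]
    rw [Finset.sum_congr rfl h2, Finset.sum_ite_eq' (Finset.range l) 0 (fun _ => X r c),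
      if_pos (Finset.mem_range.2 hl)]
  -- rank two
  have hdetX : X.det ≠ 0 := Matrix.GeneralLinearGroup.det_ne_zero x
  set w : ι × Fin 2 → Fin 2 → k := fun p r => T0 p.1 r p.2 with hw
  have hne : ∃ p p' : ι × Fin 2, w p 0 * w p' 1 - w p 1 * w p' 0 ≠ 0 := by
    by_contra hcon
    push_neg at hcon
    exact hdetX (det_eq_zero_of_cols717 i a T0 X hXsum hcon)
  obtain ⟨p1, p2, hD, hαβ⟩ := exists_cramer717 w hne
  choose α β hα hβ hwαβ using hαβ
  -- the matrix `g`
  set gM : Matrix (Fin 2) (Fin 2) k := Matrix.of (fun r c => if c = 0 then w p1 r else w p2 r)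
    with hgM
  have hgdet : gM.det ≠ 0 := by
    rw [Matrix.det_fin_two]
    simp only [hgM, Matrix.of_apply, if_pos, if_neg, Fin.isValue, one_ne_zero, if_false, if_true]
    intro h0
    apply hD
    rw [← h0]
    ring
  set g : GL (Fin 2) k := Matrix.GeneralLinearGroup.mkOfDetNeZero gM hgdet with hg
  have hgval : (g : Matrix (Fin 2) (Fin 2) k) = gM := rfl
  set G' : GL (Fin 2) k' := Matrix.GeneralLinearGroup.map i g with hG'
  have hG'val : (G' : Matrix (Fin 2) (Fin 2) k') = gM.map i := by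
    rw [hG', coe_glMap717, hgval]
  -- the matrices `P_j`
  set P : ι → Matrix (Fin 2) (Fin 2) k :=
    fun j => Matrix.of (fun r c => if r = 0 then α (j, c) else β (j, c)) with hP
  have hgP : ∀ j r c, (gM * P j) r c = T0 j r c := by
    intro j r c
    rw [Matrix.mul_apply, Fin.sum_univ_two]
    simp only [hgM, hP, Matrix.of_apply, Fin.isValue, one_ne_zero, if_false, if_true]
    exact (hwαβ (j, c) r).symm
  have hPb : ∀ j, MBdd717 0 ((P j).map i) := by
    intro j r c
    rw [Matrix.map_apply, exp_zero]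
    apply val_i_le_one717 e i hext.val_i
    simp only [hP, Matrix.of_apply]
    split_ifs
    · exact hα _
    · exact hβ _
  set yM : Matrix (Fin 2) (Fin 2) k' := ∑ j, a j • (P j).map i with hyM
  have hyMb : MBdd717 Ba yM := by
    refine MBdd717.sum _ _ (fun j _ => ?_)
    have := MBdd717.smul (hBa j) (hPb j)
    rwa [add_zero] at this
  have hXg : X = gM.map i * yM := by
    rw [hyM, Finset.mul_sum]
    ext r c
    rw [hXsum r c, Matrix.sum_apply]
    refine Finset.sum_congr rfl (fun j _ => ?_)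
    rw [Matrix.mul_smul, Matrix.smul_apply, smul_eq_mul]
    congr 1
    rw [← hgP j r c]
    have : (gM * P j).map i = gM.map i * (P j).map i := Matrix.map_mul (f := i)
    rw [← this, Matrix.map_apply]
  -- the two bounds
  have h1 : ((G'⁻¹ * x : GL (Fin 2) k') : Matrix (Fin 2) (Fin 2) k') = yM := by
    rw [Matrix.GeneralLinearGroup.coe_mul, ← hXdef, hXg, ← hG'val, ← mul_assoc,
      coe_inv_mul717, one_mul]
  have h2 : (((G'⁻¹ * x)⁻¹ : GL (Fin 2) k') : Matrix (Fin 2) (Fin 2) k') = Xi * gM.map i := by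
    rw [mul_inv_rev, inv_inv, Matrix.GeneralLinearGroup.coe_mul, hG'val]
  have h3 : ∀ r c, (Xi * gM.map i) r c
      = if c = 0 then Cj p1.1 r p1.2 else Cj p2.1 r p2.2 := by
    intro r c
    have hcol : ∀ (p : ι × Fin 2), (∑ t, Xi r t * i (w p t)) = Cj p.1 r p.2 := by
      intro p
      have : Cj p.1 = Xi * (X * Cj p.1) := by
        rw [← mul_assoc, hXiX, one_mul]
      rw [this, Matrix.mul_apply]
      refine Finset.sum_congr rfl (fun t _ => ?_)
      rw [hw]
      simp only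
      rw [hT0]
    rw [Matrix.mul_apply]
    by_cases hc0 : c = 0
    · rw [if_pos hc0, ← hcol p1]
      refine Finset.sum_congr rfl (fun t _ => ?_)
      rw [Matrix.map_apply, hgM, Matrix.of_apply, if_pos hc0]
    · rw [if_neg hc0, ← hcol p2]
      refine Finset.sum_congr rfl (fun t _ => ?_)
      rw [Matrix.map_apply, hgM, Matrix.of_apply, if_neg hc0]
  refine ⟨g, fun r c => ⟨?_, ?_⟩⟩
  · rw [h1]
    refine (hyMb r c).trans (exp_le_exp.2 ?_)
    have : 0 ≤ (l : ℤ) * Ap := mul_nonneg (by positivity) hAp0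
    linarith
  · rw [h2, h3]
    have hle : Bb + (l : ℤ) * Ap ≤ Ba + Bb + (l : ℤ) * Ap := by linarith
    split_ifs
    · exact (hCjb p1.1 r p1.2).trans (exp_le_exp.2 hle)
    · exact (hCjb p2.1 r p2.2).trans (exp_le_exp.2 hle)

/-! ## Finitely many cosets of `U'(n)` in a bounded set -/

lemma MBdd_sub717 {B : ℤ} {M M' : Matrix (Fin 2) (Fin 2) k'} (h : MBdd717 B M)
    (h' : MBdd717 B M') : MBdd717 B (M - M') := by
  intro r c
  rw [Matrix.sub_apply]
  exact (Valuation.map_sub _ _ _).trans (max_le (h r c) (h' r c))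

theorem cover717 (hunif : ∃ ϖ : k', Valued.v ϖ = exp (-1 : ℤ))
    (hres : ∃ T : Finset k', ∀ z : k', Valued.v z ≤ 1 → ∃ x ∈ T, Valued.v (z - x) < 1)
    (n : ℕ) (C : ℤ) :
    ∃ Y : Finset (GL (Fin 2) k'), ∀ y' : GL (Fin 2) k', EntryBdd783 C y' →
      ∃ y ∈ Y, ∃ u : GL (Fin 2) k', InU n u ∧ y' = y * u := by
  classical
  set M : ℤ := (n : ℤ) + max C 0 with hM
  have hCM : C + -M ≤ -(n : ℤ) := by
    have := le_max_left C 0
    rw [hM]
    linarith
  obtain ⟨R, hR⟩ := exists_reps717 hunif hres C M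
  -- the predicate
  set Q : (Fin 2 → Fin 2 → ↥R) → GL (Fin 2) k' → Prop := fun ρ y =>
    EntryBdd783 C y ∧ ∀ r c : Fin 2,
      Valued.v ((y : Matrix (Fin 2) (Fin 2) k') r c - (ρ r c : k')) ≤ exp (-M) with hQ
  set F : (Fin 2 → Fin 2 → ↥R) → GL (Fin 2) k' := fun ρ =>
    if h : ∃ y, Q ρ y then Classical.choose h else 1 with hF
  refine ⟨(Finset.univ : Finset (Fin 2 → Fin 2 → ↥R)).image F, fun y' hy' => ?_⟩
  have hex : ∀ r c : Fin 2, ∃ t : ↥R,
      Valued.v ((y' : Matrix (Fin 2) (Fin 2) k') r c - (t : k')) ≤ exp (-M) := by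
    intro r c
    obtain ⟨t, ht, htv⟩ := hR _ (hy' r c).1
    exact ⟨⟨t, ht⟩, htv⟩
  choose ρ hρ using hex
  have hQρ : ∃ y, Q ρ y := ⟨y', hy', hρ⟩
  set y : GL (Fin 2) k' := F ρ with hy
  have hyQ : Q ρ y := by
    rw [hy, hF]
    simp only
    rw [dif_pos hQρ]
    exact Classical.choose_spec hQρ
  refine ⟨y, Finset.mem_image.2 ⟨ρ, Finset.mem_univ _, rfl⟩, y⁻¹ * y', ?_, ?_⟩
  swap
  · rw [mul_inv_cancel_left]
  -- the difference is small
  set Ym : Matrix (Fin 2) (Fin 2) k' := (y : Matrix (Fin 2) (Fin 2) k') with hYm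
  set Ym' : Matrix (Fin 2) (Fin 2) k' := (y' : Matrix (Fin 2) (Fin 2) k') with hYm'
  set Yi : Matrix (Fin 2) (Fin 2) k' := ((y⁻¹ : GL (Fin 2) k') : Matrix (Fin 2) (Fin 2) k')
    with hYi
  set Yi' : Matrix (Fin 2) (Fin 2) k' := ((y'⁻¹ : GL (Fin 2) k') : Matrix (Fin 2) (Fin 2) k')
    with hYi'
  have hd1 : MBdd717 (-M) (Ym' - Ym) := by
    intro r c
    have e1 : (Ym' - Ym) r c = (Ym' r c - (ρ r c : k')) - (Ym r c - (ρ r c : k')) := by
      rw [Matrix.sub_apply]
      ring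
    rw [e1]
    exact (Valuation.map_sub _ _ _).trans (max_le (hρ r c) (hyQ.2 r c))
  have hd2 : MBdd717 (-M) (Ym - Ym') := by
    intro r c
    have e1 : (Ym - Ym') r c = (Ym r c - (ρ r c : k')) - (Ym' r c - (ρ r c : k')) := by
      rw [Matrix.sub_apply]
      ring
    rw [e1]
    exact (Valuation.map_sub _ _ _).trans (max_le (hyQ.2 r c) (hρ r c))
  have hYib : MBdd717 C Yi := fun r c => (hyQ.1 r c).2
  have hYib' : MBdd717 C Yi' := fun r c => (hy' r c).2
  have hu1 : ((y⁻¹ * y' : GL (Fin 2) k') : Matrix (Fin 2) (Fin 2) k') - 1 = Yi * (Ym' - Ym) := by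
    rw [Matrix.GeneralLinearGroup.coe_mul, mul_sub, hYi, hYm, coe_inv_mul717]
  have hu2 : (((y⁻¹ * y')⁻¹ : GL (Fin 2) k') : Matrix (Fin 2) (Fin 2) k') - 1
      = Yi' * (Ym - Ym') := by
    rw [mul_inv_rev, inv_inv, Matrix.GeneralLinearGroup.coe_mul, mul_sub, hYi', hYm',
      coe_inv_mul717]
  intro r c
  constructor
  · have := (hYib.mul hd1) r c
    rw [← hu1, Matrix.sub_apply] at this
    exact this.trans (exp_le_exp.2 hCM)
  · have := (hYib'.mul hd2) r c
    rw [← hu2, Matrix.sub_apply] at this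
    exact this.trans (exp_le_exp.2 hCM)

/-! ## Bounded Hilbert 90 -/

/-- **T6.18g2-P2 (bounded Hilbert 90).** -/
theorem bh90C717 : BH90C783 := by
  intro k k' _ _ _ _ q l e i s hk hk' hext hl n A
  obtain ⟨C, hC⟩ := descent717 l e i s hext A
  obtain ⟨T, -, -, -, hT⟩ := hk'.residue
  obtain ⟨Y, hY⟩ := cover717 hk'.unif ⟨T, hT⟩ n C
  refine ⟨Y, fun x hx => ?_⟩
  obtain ⟨g, hg⟩ := hC x hx
  obtain ⟨y, hy, u, hu, hyu⟩ := hY _ hg
  refine ⟨y, hy, g, u, hu, ?_⟩
  rw [mul_assoc, ← hyu, mul_inv_cancel_left]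

end Fermat.Agent.LT.T6.H717
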