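import Mathlib

/-!
# Row LT, tower T6, leaf T6.18g2-P2 (bounded Hilbert 90), helper717: Mathlib-only tools

OFF-MAIN.

* `exists_partition717` : GALOIS PARTITION OF UNITY.  For a field automorphism `s` with
  `s ^ m ≠ 1` (`0 < m < l`) there is a finite family `(a_j, b_j)` with
  `∑_j a_j · s^m (b_j) = δ_{m,0}` (`m < l`).  (No degree, no basis, no trace form: the product
  `∏_{0<m<l} (s^m(y_m) ⊗ 1 - 1 ⊗ y_m)` expanded.)
* `MBdd717` : entrywise bounds for `2 × 2` matrices over a field with a valuation in `ℤᵐ⁰`.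
* `exists_reps717` : finitely many representatives of a ball modulo a smaller ball.
* `exists_cramer717` : a finite family of vectors of `k²` of rank `2` lies in `g 𝒪²`, `g` = the
  pair of vectors of maximal `|det|` (Cramer's rule).
-/

set_option autoImplicit false
set_option linter.unusedSectionVars false
set_option linter.style.haveILetI false
set_option linter.unusedVariables false

open scoped Matrix

namespace Fermat.Agent.LT.T6.H717

/-! ## Galois partition of unity -/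

/-- Abstract product expansion: for ring homs `τ m' : K →+* K`, elements `c m, y m` (`m ∈ F`),
there is a finite family `(a_j, b_j)` with `∑_j a_j τ_{m'}(b_j) = ∏_{m ∈ F} (c_m - τ_{m'}(y_m))`
for all `m'`. -/
theorem exists_family_prod717 {K : Type} [CommRing K] (τ : ℕ → (K →+* K)) (c y : ℕ → K)
    (F : Finset ℕ) :
    ∃ (ι : Type) (_ : Fintype ι) (a b : ι → K), ∀ m' : ℕ,
      ∑ j, a j * τ m' (b j) = ∏ m ∈ F, (c m - τ m' (y m)) := by
  classical
  induction F using Finset.induction_on with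
  | empty =>
    refine ⟨Unit, inferInstance, fun _ => 1, fun _ => 1, fun m' => ?_⟩
    simp
  | insert m₀ F hm ih =>
    obtain ⟨ι, hι, a, b, hab⟩ := ih
    refine ⟨ι ⊕ ι, inferInstance, Sum.elim (fun j => a j * c m₀) (fun j => - a j),
      Sum.elim b (fun j => b j * y m₀), fun m' => ?_⟩
    rw [Fintype.sum_sum_type, Finset.prod_insert hm, ← hab m']
    simp only [Sum.elim_inl, Sum.elim_inr, map_mul]
    rw [sub_mul, Finset.mul_sum, Finset.mul_sum, sub_eq_add_neg, ← Finset.sum_neg_distrib]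
    congr 1
    · refine Finset.sum_congr rfl (fun j _ => ?_)
      ring
    · refine Finset.sum_congr rfl (fun j _ => ?_)
      ring

/-- **Galois partition of unity.** -/
theorem exists_partition717 {K : Type} [Field K] (s : K ≃+* K) (l : ℕ)
    (hfaith : ∀ m : ℕ, 0 < m → m < l → ∃ y : K, (s ^ m) y ≠ y) :
    ∃ (ι : Type) (_ : Fintype ι) (a b : ι → K), ∀ m : ℕ, m < l →
      ∑ j, a j * (s ^ m) (b j) = if m = 0 then 1 else 0 := by
  classical
  choose! y hy using hfaith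
  set τ : ℕ → (K →+* K) := fun m => ((s ^ m : K ≃+* K) : K →+* K) with hτ
  set c : ℕ → K := fun m => (s ^ m) (y m) with hc
  set F : Finset ℕ := (Finset.range l).filter (fun m => m ≠ 0) with hF
  obtain ⟨ι, hι, a, b, hab⟩ := exists_family_prod717 τ c y F
  set d : K := ∏ m ∈ F, (c m - y m) with hd
  have hd0 : d ≠ 0 := by
    rw [hd, Finset.prod_ne_zero_iff]
    intro m hm
    rw [hF, Finset.mem_filter, Finset.mem_range] at hm
    exact sub_ne_zero.2 (hy m (Nat.pos_of_ne_zero hm.2) hm.1)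
  refine ⟨ι, hι, fun j => d⁻¹ * a j, b, fun m hm => ?_⟩
  have h1 : ∑ j, d⁻¹ * a j * (s ^ m) (b j) = d⁻¹ * ∑ j, a j * τ m (b j) := by
    rw [Finset.mul_sum]
    refine Finset.sum_congr rfl (fun j _ => ?_)
    rw [mul_assoc]
    rfl
  rw [h1, hab m]
  by_cases hm0 : m = 0
  · subst hm0
    rw [if_pos rfl]
    have : ∏ m ∈ F, (c m - τ 0 (y m)) = d := by
      rw [hd]
      refine Finset.prod_congr rfl (fun m _ => ?_)
      simp [hτ]
    rw [this, inv_mul_cancel₀ hd0]
  · rw [if_neg hm0]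
    have : ∏ m' ∈ F, (c m' - τ m (y m')) = 0 := by
      apply Finset.prod_eq_zero (i := m)
      · rw [hF, Finset.mem_filter, Finset.mem_range]
        exact ⟨hm, hm0⟩
      · simp [hc, hτ]
    rw [this, mul_zero]

/-! ## Valuations in `ℤᵐ⁰` -/

section Val

open WithZero

lemma le_exp_pred_of_lt717 (x : WithZero (Multiplicative ℤ)) (a : ℤ) (h : x < exp a) :
    x ≤ exp (a - 1) := by
  by_cases hx : x = 0
  · rw [hx]; exact zero_le'
  · rw [← exp_log hx] at h ⊢
    rw [exp_lt_exp] at h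
    rw [exp_le_exp]
    omega

variable {K : Type} [Field K] [Valued K (WithZero (Multiplicative ℤ))]

/-- Entrywise bound of a `2 × 2` matrix. -/
def MBdd717 (B : ℤ) (M : Matrix (Fin 2) (Fin 2) K) : Prop :=
  ∀ a b : Fin 2, Valued.v (M a b) ≤ exp B

lemma MBdd717.mono {B B' : ℤ} {M : Matrix (Fin 2) (Fin 2) K} (h : MBdd717 B M) (hB : B ≤ B') :
    MBdd717 B' M := fun a b => (h a b).trans (exp_le_exp.2 hB)

lemma MBdd717.one : MBdd717 0 (1 : Matrix (Fin 2) (Fin 2) K) := by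
  intro a b
  rw [exp_zero]
  by_cases hab : a = b
  · subst hab
    rw [Matrix.one_apply_eq, map_one]
  · rw [Matrix.one_apply_ne hab, map_zero]
    exact zero_le'

lemma MBdd717.mul {B B' : ℤ} {M M' : Matrix (Fin 2) (Fin 2) K} (h : MBdd717 B M)
    (h' : MBdd717 B' M') : MBdd717 (B + B') (M * M') := by
  intro a b
  rw [Matrix.mul_apply]
  refine Valuation.map_sum_le _ (fun c _ => ?_)
  rw [map_mul, exp_add]
  exact mul_le_mul' (h a c) (h' c b)

lemma MBdd717.sum {ι : Type*} {B : ℤ} (s : Finset ι) (f : ι → Matrix (Fin 2) (Fin 2) K)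
    (h : ∀ j ∈ s, MBdd717 B (f j)) : MBdd717 B (∑ j ∈ s, f j) := by
  intro a b
  rw [Matrix.sum_apply]
  exact Valuation.map_sum_le _ (fun j hj => h j hj a b)

lemma MBdd717.smul {B Bb : ℤ} {M : Matrix (Fin 2) (Fin 2) K} {c : K}
    (hc : Valued.v c ≤ exp Bb) (h : MBdd717 B M) : MBdd717 (Bb + B) (c • M) := by
  intro a b
  rw [Matrix.smul_apply, smul_eq_mul, map_mul, exp_add]
  exact mul_le_mul' hc (h a b)

lemma MBdd717.map {B : ℤ} {M : Matrix (Fin 2) (Fin 2) K} (σ : K →+* K)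
    (hσ : ∀ y : K, Valued.v (σ y) = Valued.v y) (h : MBdd717 B M) : MBdd717 B (M.map σ) := by
  intro a b
  rw [Matrix.map_apply, hσ]
  exact h a b

/-! ## Representatives -/

/-- Representatives of the integers modulo `ϖ^N`. -/
theorem exists_reps_int717 (hunif : ∃ ϖ : K, Valued.v ϖ = exp (-1 : ℤ))
    (hres : ∃ T : Finset K, ∀ z : K, Valued.v z ≤ 1 → ∃ x ∈ T, Valued.v (z - x) < 1) (N : ℕ) :
    ∃ R : Finset K, ∀ z : K, Valued.v z ≤ 1 → ∃ r ∈ R, Valued.v (z - r) ≤ exp (-(N : ℤ)) := by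
  classical
  obtain ⟨ϖ, hϖ⟩ := hunif
  obtain ⟨T, hT⟩ := hres
  have hϖ0 : ϖ ≠ 0 := by
    intro h0
    rw [h0, map_zero] at hϖ
    exact exp_ne_zero hϖ.symm
  induction N with
  | zero =>
    refine ⟨{0}, fun z hz => ⟨0, Finset.mem_singleton_self _, ?_⟩⟩
    rw [sub_zero]
    simpa using hz
  | succ N ih =>
    obtain ⟨R, hR⟩ := ih
    refine ⟨(T ×ˢ R).image (fun p => p.1 + ϖ * p.2), fun z hz => ?_⟩
    obtain ⟨t, ht, hzt⟩ := hT z hz
    have hzt' : Valued.v (z - t) ≤ exp (-1 : ℤ) := by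
      have := le_exp_pred_of_lt717 (Valued.v (z - t)) 0 (by rw [exp_zero]; exact hzt)
      simpa using this
    set z₁ : K := (z - t) / ϖ with hz₁
    have hz₁v : Valued.v z₁ ≤ 1 := by
      rw [hz₁, map_div₀, hϖ]
      rw [div_le_iff₀ (lt_of_le_of_ne zero_le' (Ne.symm exp_ne_zero)), one_mul]
      exact hzt'
    obtain ⟨r, hr, hzr⟩ := hR z₁ hz₁v
    refine ⟨t + ϖ * r, ?_, ?_⟩
    · rw [Finset.mem_image]
      exact ⟨(t, r), Finset.mem_product.2 ⟨ht, hr⟩, rfl⟩
    · have e1 : z - (t + ϖ * r) = ϖ * (z₁ - r) := by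
        rw [hz₁]
        field_simp
        ring
      rw [e1, map_mul, hϖ]
      have e2 : (exp (-((N + 1 : ℕ) : ℤ)) : WithZero (Multiplicative ℤ))
          = exp (-1 : ℤ) * exp (-(N : ℤ)) := by
        rw [← exp_add]
        congr 1
        push_cast
        ring
      rw [e2]
      exact mul_le_mul' le_rfl hzr

/-- Representatives of a ball modulo a smaller ball. -/
theorem exists_reps717 (hunif : ∃ ϖ : K, Valued.v ϖ = exp (-1 : ℤ))
    (hres : ∃ T : Finset K, ∀ z : K, Valued.v z ≤ 1 → ∃ x ∈ T, Valued.v (z - x) < 1)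
    (C M : ℤ) :
    ∃ R : Finset K, ∀ z : K, Valued.v z ≤ exp C → ∃ r ∈ R, Valued.v (z - r) ≤ exp (-M) := by
  classical
  obtain ⟨R, hR⟩ := exists_reps_int717 hunif hres (M + C).toNat
  obtain ⟨ϖ, hϖ⟩ := hunif
  have hϖ0 : ϖ ≠ 0 := by
    intro h0
    rw [h0, map_zero] at hϖ
    exact exp_ne_zero hϖ.symm
  have hpow : ∀ j : ℤ, Valued.v (ϖ ^ j) = exp (-j) := by
    intro j
    rw [map_zpow₀, hϖ]
    rw [← exp_zsmul]
    congr 1
    simp
  refine ⟨R.image (fun r => ϖ ^ (-C) * r), fun z hz => ?_⟩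
  have hz' : Valued.v (ϖ ^ C * z) ≤ 1 := by
    rw [map_mul, hpow, ← exp_zero]
    calc exp (-C) * Valued.v z ≤ exp (-C) * exp C := mul_le_mul' le_rfl hz
      _ = exp 0 := by rw [← exp_add]; congr 1; ring
  obtain ⟨r, hr, hzr⟩ := hR _ hz'
  refine ⟨ϖ ^ (-C) * r, Finset.mem_image.2 ⟨r, hr, rfl⟩, ?_⟩
  have e1 : z - ϖ ^ (-C) * r = ϖ ^ (-C) * (ϖ ^ C * z - r) := by
    rw [mul_sub, ← mul_assoc, ← zpow_add₀ hϖ0]
    simp
  rw [e1, map_mul, hpow, neg_neg]
  calc exp C * Valued.v (ϖ ^ C * z - r) ≤ exp C * exp (-((M + C).toNat : ℤ)) :=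
        mul_le_mul' le_rfl hzr
    _ = exp (C - ((M + C).toNat : ℤ)) := by rw [← exp_add]; congr 1
    _ ≤ exp (-M) := by
        rw [exp_le_exp]
        have := Int.self_le_toNat (M + C)
        omega

/-! ## Cramer selection -/

/-- A finite family of vectors of `k²` containing two independent vectors lies in the
`𝒪`-span of the pair of maximal `|det|`. -/
theorem exists_cramer717 {J : Type} [Fintype J] (w : J → Fin 2 → K)
    (hne : ∃ p p' : J, w p 0 * w p' 1 - w p 1 * w p' 0 ≠ 0) :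
    ∃ p1 p2 : J, (w p1 0 * w p2 1 - w p1 1 * w p2 0 ≠ 0) ∧
      ∀ p : J, ∃ α β : K, Valued.v α ≤ 1 ∧ Valued.v β ≤ 1 ∧
        ∀ r : Fin 2, w p r = w p1 r * α + w p2 r * β := by
  classical
  obtain ⟨q, q', hqq⟩ := hne
  obtain ⟨⟨p1, p2⟩, -, hmax⟩ := Finset.exists_max_image (Finset.univ : Finset (J × J))
    (fun P => Valued.v (w P.1 0 * w P.2 1 - w P.1 1 * w P.2 0)) ⟨(q, q'), Finset.mem_univ _⟩
  set D : K := w p1 0 * w p2 1 - w p1 1 * w p2 0 with hD
  have hD0 : D ≠ 0 := by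
    intro h0
    have h1 := hmax (q, q') (Finset.mem_univ _)
    simp only at h1
    rw [h0, map_zero] at h1
    exact hqq ((map_eq_zero _).1 (le_antisymm h1 zero_le'))
  have hvD : 0 < Valued.v D := lt_of_le_of_ne zero_le' (fun h => hD0 ((map_eq_zero _).1 h.symm))
  refine ⟨p1, p2, hD0, fun p => ?_⟩
  refine ⟨(w p 0 * w p2 1 - w p 1 * w p2 0) / D, (w p1 0 * w p 1 - w p1 1 * w p 0) / D, ?_, ?_, ?_⟩
  · rw [map_div₀, div_le_one₀ hvD]
    exact hmax (p, p2) (Finset.mem_univ _)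
  · rw [map_div₀, div_le_one₀ hvD]
    exact hmax (p1, p) (Finset.mem_univ _)
  · intro r
    fin_cases r
    · show w p 0 = w p1 0 * _ + w p2 0 * _
      field_simp
      rw [hD]
      ring
    · show w p 1 = w p1 1 * _ + w p2 1 * _
      field_simp
      rw [hD]
      ring

end Val

end Fermat.Agent.LT.T6.H717
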