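import Fermat.Agent.LT.T6.H783.DescSpec
import Fermat.Agent.LT.T6.H717.BH90Aux

/-!
# Row LT, tower T6, leaf T6.18g2-P2 (bounded Hilbert 90), helper717: the descent

OFF-MAIN.  `descent717` : for a cyclic extension `k'/k` with generator `s` (`IsLocalExt`) and
`A : ℤ` there is `C` such that every `x ∈ GL₂(k')` with cocycle `x⁻¹ s(x)` bounded by `A`
is `x = g y'`, `g ∈ GL₂(k)`, `y'` and `y'⁻¹` bounded by `C`.

Proof (matrices only).  `s^m(x) = x N_m`, `N_m = c s(c) ⋯ s^{m-1}(c)` bounded.  With a Galois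
partition of unity `∑_j a_j s^m(b_j) = δ_{m0}`: `T_j = ∑_m s^m(b_j x) = x C_j` has entries in `k`,
`C_j` bounded, `x = ∑_j a_j T_j`.  The columns of the `T_j` have rank `2`; `g` = the pair of
columns of maximal `|det|`; Cramer: `T_j = g P_j`, `P_j` integral.  Then `y' = ∑_j a_j P_j` and
`y'⁻¹ = x⁻¹ g` = two columns of the `C_j`.
-/

set_option autoImplicit false
set_option linter.unusedSectionVars false
set_option linter.style.haveILetI false
set_option linter.unusedVariables false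
set_option maxHeartbeats 1600000

open scoped Matrix

noncomputable section

namespace Fermat.Agent.LT.T6.H717

open Fermat.Agent.LT.T6 Fermat.Agent.LT.T6.H783 WithZero

variable {k k' : Type} [Field k] [Field k'] [Valued k Γ₀] [Valued k' Γ₀]

/-! ## Powers of `s` -/

lemma pow_succ_apply717 (s : k' ≃+* k') (m : ℕ) (y : k') : (s ^ (m + 1)) y = s ((s ^ m) y) := by
  rw [pow_succ']
  rfl

lemma pow_zero_apply717 (s : k' ≃+* k') (y : k') : (s ^ 0) y = y := by
  rw [pow_zero]
  rfl

lemma val_pow717 (s : k' ≃+* k') (hs : ∀ y : k', Valued.v (s y) = Valued.v y) (m : ℕ)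
    (y : k') : Valued.v ((s ^ m) y) = Valued.v y := by
  induction m with
  | zero => rw [pow_zero_apply717]
  | succ m ih => rw [pow_succ_apply717, hs, ih]

/-- The trace `∑_{m<l} s^m(y)` is fixed by `s`. -/
lemma trace_fixed717 (s : k' ≃+* k') (l : ℕ) (hord : ∀ y : k', (s ^ l) y = y) (y : k') :
    s (∑ m ∈ Finset.range l, (s ^ m) y) = ∑ m ∈ Finset.range l, (s ^ m) y := by
  rw [map_sum]
  have h1 : ∑ m ∈ Finset.range l, s ((s ^ m) y) = ∑ m ∈ Finset.range l, (s ^ (m + 1)) y :=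
    Finset.sum_congr rfl (fun m _ => (pow_succ_apply717 s m y).symm)
  rw [h1]
  have h2 := Finset.sum_range_succ' (fun m => (s ^ m) y) l
  have h3 := Finset.sum_range_succ (fun m => (s ^ m) y) l
  rw [h3] at h2
  simp only [pow_zero_apply717, hord] at h2
  exact (add_right_cancel h2).symm

/-! ## A bound for a finite family -/

lemma exists_bound717 {ι : Type} [Fintype ι] (f : ι → k') :
    ∃ B : ℤ, 0 ≤ B ∧ ∀ j, Valued.v (f j) ≤ exp B := by
  classical
  obtain ⟨B, hB⟩ := Finset.exists_le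
    (insert (0 : ℤ) ((Finset.univ : Finset ι).image (fun j => log (Valued.v (f j)))))
  refine ⟨B, hB 0 (Finset.mem_insert_self _ _), fun j => ?_⟩
  by_cases h0 : Valued.v (f j) = 0
  · rw [h0]; exact zero_le'
  · rw [← exp_log h0, exp_le_exp]
    exact hB _ (Finset.mem_insert_of_mem (Finset.mem_image_of_mem _ (Finset.mem_univ j)))

/-! ## The matrices `N_m` -/

/-- `N_0 = 1`, `N_{m+1} = c · s(N_m)`. -/
def Nmat717 (s : k' ≃+* k') (c : Matrix (Fin 2) (Fin 2) k') : ℕ → Matrix (Fin 2) (Fin 2) k'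
  | 0 => 1
  | (m + 1) => c * (Nmat717 s c m).map s

lemma map_pow_eq717 (s : k' ≃+* k') (X Xi : Matrix (Fin 2) (Fin 2) k') (hX : X * Xi = 1)
    (m : ℕ) : X.map (s ^ m) = X * Nmat717 s (Xi * X.map s) m := by
  induction m with
  | zero =>
    rw [Nmat717, mul_one]
    ext a b
    rw [Matrix.map_apply, pow_zero_apply717]
  | succ m ih =>
    have h1 : X.map (s ^ (m + 1)) = (X.map (s ^ m)).map s := by
      ext a b
      rw [Matrix.map_apply, Matrix.map_apply, Matrix.map_apply, pow_succ_apply717]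
    have h2 : (X * Nmat717 s (Xi * X.map s) m).map s
        = X.map s * (Nmat717 s (Xi * X.map s) m).map s := by
      exact Matrix.map_mul (f := (s : k' →+* k'))
    rw [h1, ih, h2, Nmat717, ← mul_assoc, ← mul_assoc, hX, one_mul]

lemma Nmat_bdd717 (s : k' ≃+* k') (hs : ∀ y : k', Valued.v (s y) = Valued.v y)
    (c : Matrix (Fin 2) (Fin 2) k') (A : ℤ) (hA : 0 ≤ A) (hc : MBdd717 A c) (m : ℕ) :
    MBdd717 ((m : ℤ) * A) (Nmat717 s c m) := by
  induction m with
  | zero =>
    rw [Nmat717]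
    simpa using (MBdd717.one (K := k'))
  | succ m ih =>
    rw [Nmat717]
    have h1 : MBdd717 ((m : ℤ) * A) ((Nmat717 s c m).map s) := by
      intro a b
      rw [Matrix.map_apply, hs]
      exact ih a b
    have h2 := hc.mul h1
    refine h2.mono ?_
    push_cast
    linarith

/-! ## The determinant is bilinear in the columns -/

lemma det_eq_zero_of_cols717 {ι : Type} [Fintype ι] (i : k →+* k') (a : ι → k')
    (T0 : ι → Fin 2 → Fin 2 → k) (X : Matrix (Fin 2) (Fin 2) k')
    (hX : ∀ r c, X r c = ∑ j, a j * i (T0 j r c))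
    (hdet : ∀ (p p' : ι × Fin 2),
      T0 p.1 0 p.2 * T0 p'.1 1 p'.2 - T0 p.1 1 p.2 * T0 p'.1 0 p'.2 = 0) :
    X.det = 0 := by
  rw [Matrix.det_fin_two, hX 0 0, hX 1 1, hX 0 1, hX 1 0]
  rw [Finset.sum_mul_sum, Finset.sum_mul_sum]
  rw [Finset.sum_comm (f := fun j j' => a j * i (T0 j 0 1) * (a j' * i (T0 j' 1 0)))]
  rw [← Finset.sum_sub_distrib]
  apply Finset.sum_eq_zero
  intro j _
  rw [← Finset.sum_sub_distrib]
  apply Finset.sum_eq_zero
  intro j' _
  have h := hdet (j, 0) (j', 1)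
  simp only at h
  have h2 : a j * i (T0 j 0 0) * (a j' * i (T0 j' 1 1)) - a j' * i (T0 j' 0 1) * (a j * i (T0 j 1 0))
      = a j * a j' * i (T0 j 0 0 * T0 j' 1 1 - T0 j 1 0 * T0 j' 0 1) := by
    rw [map_sub, map_mul, map_mul]
    ring
  rw [h2, h, map_zero, mul_zero]

end Fermat.Agent.LT.T6.H717
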